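import Mathlib
import Fermat.Prelude.Def_ModularForm_HeckeOperatorForms
import Fermat.Agent.S23.Basic

/-!
# Project GS, module AL (`a_q² = 1` for a newform of level `M = M₁ q`, `q ∤ M₁`): definitions

Everything is done with functions `ℍ → ℂ` and the weight `2` slash action of `GL₂(ℝ)`, as in
`S16/Trace.lean` (which is the case `M₁ = 1`).

* `IsCF Γ k F`: `F` is (the function underlying) a cusp form.
* `WData M₁ q`: integers `b, d` with `q d - b M₁ = 1`; `W = [[q, b], [M₁ q, q d]]` (determinant `q`).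
* `g0 = [[1, b], [M₁, q d]] ∈ Γ₀(M₁)`; `W = g0 · diag(q, 1)`.
* `tr F = F + U_q (F | W)`: the trace from level `M₁ q` to level `M₁`.
-/

set_option autoImplicit false

noncomputable section

namespace Fermat.Agent.GS.AL

open UpperHalfPlane ModularForm MatrixGroups CongruenceSubgroup Matrix.SpecialLinearGroup
open Fermat.Agent.S23
open scoped ModularForm Manifold

/-- `F` is (the function underlying) a cusp form of weight `w` for `Γ`. -/
def IsCF (Γ : Subgroup (GL (Fin 2) ℝ)) (w : ℤ) (F : ℍ → ℂ) : Prop :=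
  ∃ a : CuspForm Γ w, ⇑a = F

/-- `F` is invariant under `Γ₀(N)`. -/
def Inv (N : ℕ) (k : ℤ) (F : ℍ → ℂ) : Prop := ∀ γ ∈ G0 N, F ∣[k] γ = F

/-- Bezout data for the Atkin-Lehner matrix. -/
structure WData (M₁ q : ℕ) where
  b : ℤ
  d : ℤ
  det_eq : (q : ℤ) * d - b * M₁ = 1

theorem exists_wData {M₁ q : ℕ} (h : Nat.Coprime q M₁) : Nonempty (WData M₁ q) := by
  refine ⟨⟨-Nat.gcdB q M₁, Nat.gcdA q M₁, ?_⟩⟩
  have := Nat.gcd_eq_gcd_ab q M₁
  rw [h] at this
  push_cast at this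
  linarith

variable {M₁ q : ℕ}

/-- the Atkin-Lehner matrix `[[q, b], [M₁ q, q d]]`. -/
def WData.W [NeZero q] (D : WData M₁ q) : GL (Fin 2) ℝ :=
  Matrix.GeneralLinearGroup.mkOfDetNeZero !![(q : ℝ), (D.b : ℝ); (M₁ : ℝ) * q, (q : ℝ) * D.d] (by
    have h : ((q : ℝ) * D.d - D.b * M₁) = 1 := by exact_mod_cast D.det_eq
    have hq : (q : ℝ) ≠ 0 := by exact_mod_cast NeZero.ne q
    rw [Matrix.det_fin_two_of]
    have : (q : ℝ) * (q * D.d) - D.b * (M₁ * q) = q := by linear_combination (q : ℝ) * h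
    rw [this]
    exact hq)

@[simp] theorem WData.val_W [NeZero q] (D : WData M₁ q) :
    ((D.W : GL (Fin 2) ℝ) : Matrix (Fin 2) (Fin 2) ℝ) =
      !![(q : ℝ), (D.b : ℝ); (M₁ : ℝ) * q, (q : ℝ) * D.d] := rfl

/-- `[[1, b], [M₁, q d]] ∈ Γ₀(M₁)`. -/
def WData.g0 (D : WData M₁ q) : SL(2, ℤ) :=
  ⟨!![1, D.b; (M₁ : ℤ), (q : ℤ) * D.d], by
    rw [Matrix.det_fin_two_of]
    linarith [D.det_eq]⟩

/-- the trace from level `M₁ q` to level `M₁` (weight two). -/
def WData.tr [NeZero q] (D : WData M₁ q) (F : ℍ → ℂ) : ℍ → ℂ :=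
  F + heckeU 2 q (F ∣[(2 : ℤ)] D.W)

end Fermat.Agent.GS.AL
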