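import Mathlib

/-!
# GS-AL: common eigenvectors of commuting families (abstract)
-/

set_option autoImplicit false

namespace Fermat.Agent.GS.AL

/-- auxiliary: induction on the dimension, for submodules stable under the family -/
private theorem EigenAbs_aux {V ι : Type*} [AddCommGroup V] [Module ℂ V]
    [FiniteDimensional ℂ V] (T : ι → Module.End ℂ V)
    (hT : ∀ i j, Commute (T i) (T j)) :
    ∀ (n : ℕ) (W : Submodule ℂ V), Module.finrank ℂ W = n → W ≠ ⊥ →
      (∀ i, ∀ w ∈ W, T i w ∈ W) →
      ∃ (v : V) (c : ι → ℂ), v ≠ 0 ∧ ∀ i, T i v = c i • v := by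
  intro n
  induction n using Nat.strong_induction_on with
  | _ n ih =>
    intro W hn hW hst
    by_cases hsc : ∀ i, ∃ c : ℂ, ∀ w ∈ W, T i w = c • w
    · choose c hc using hsc
      obtain ⟨v, hvW, hv0⟩ := Submodule.exists_mem_ne_zero_of_ne_bot hW
      exact ⟨v, c, hv0, fun i => hc i v hvW⟩
    · push_neg at hsc
      obtain ⟨i, hi⟩ := hsc
      haveI : Nontrivial W := Submodule.nontrivial_iff_ne_bot.2 hW
      -- restrict `T i` to `W`
      let Ti : Module.End ℂ W := (T i).restrict (hst i)
      obtain ⟨c, hc⟩ := Module.End.exists_eigenvalue Ti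
      obtain ⟨w, hw⟩ := hc.exists_hasEigenvector
      let W' : Submodule ℂ V := W ⊓ LinearMap.ker (T i - c • (1 : Module.End ℂ V))
      have hwW' : (w : V) ∈ W' := by
        refine ⟨w.2, ?_⟩
        have h1 : Ti w = c • w := hw.apply_eq_smul
        have h2 : T i (w : V) = c • (w : V) := congrArg Subtype.val h1
        simp [LinearMap.mem_ker, h2]
      have hW'0 : W' ≠ ⊥ := by
        intro h
        have : (w : V) = 0 := by
          have := hwW'
          rw [h] at this
          simpa using this
        exact hw.2 (Subtype.ext this)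
      have hW'lt : W' < W := by
        refine lt_of_le_of_ne inf_le_left ?_
        intro h
        obtain ⟨x, hxW, hx⟩ := hi c
        apply hx
        have : x ∈ W' := h ▸ hxW
        have h2 := this.2
        simpa [LinearMap.mem_ker, sub_eq_zero] using h2
      have hst' : ∀ j, ∀ x ∈ W', T j x ∈ W' := by
        intro j x hx
        refine ⟨hst j x hx.1, ?_⟩
        have h2 : T i x = c • x := by
          have := hx.2
          simpa [LinearMap.mem_ker, sub_eq_zero] using this
        have h3 : T i (T j x) = T j (T i x) := by
          have := congrArg (fun f : Module.End ℂ V => f x) (hT i j).eq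
          simpa using this
        simp [LinearMap.mem_ker, h3, h2]
      have hlt : Module.finrank ℂ W' < n := hn ▸ Submodule.finrank_lt_finrank_of_lt hW'lt
      exact ih _ hlt W' rfl hW'0 hst'

/-- a commuting family of endomorphisms of a nonzero finite dimensional complex vector space has a
common eigenvector. -/
theorem exists_common_eigenvector {V ι : Type*} [AddCommGroup V] [Module ℂ V]
    [FiniteDimensional ℂ V] [Nontrivial V] (T : ι → Module.End ℂ V)
    (hT : ∀ i j, Commute (T i) (T j)) :
    ∃ (v : V) (c : ι → ℂ), v ≠ 0 ∧ ∀ i, T i v = c i • v :=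
  EigenAbs_aux T hT _ ⊤ rfl top_ne_bot (fun _ _ _ => Submodule.mem_top)

end Fermat.Agent.GS.AL
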