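import Fermat.Agent.S49.Normalize
import Fermat.Agent.GS.AL.EigenAbs
import Fermat.Agent.S23.Main
import Fermat.Prelude.Def_CuspForm_Newforms
import Fermat.Prelude.Def_CuspForm_HeckeAlgebra

/-!
# GS-AL 4: a good eigenvector at level `M₁` produces a normalized eigenform at level `M₁`

`E = ⋂_{ℓ ∤ M₁ Q} ker (T_ℓ - a ℓ)` is a nonzero finite dimensional space, stable under the commuting
operators `T_ℓ` (`ℓ ∤ M₁`), `U_r` (`r ∣ M₁`) (Prelude: `CuspForm.heckeTLin_comm`,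
`heckeTLin_heckeULin_comm`, `heckeULin_comm`), so it contains a common eigenvector; conclude with
`S49.exists_normalized`.
-/

set_option autoImplicit false

namespace Fermat.Agent.GS.AL

open CongruenceSubgroup ModularFormClass

theorem exists_eigenform_of_good_eigenvector {M₁ : ℕ} [NeZero M₁] (Q : ℕ) (a : ℕ → ℂ)
    (h : CuspForm (Gamma0 M₁) 2) (h0 : h ≠ 0)
    (hT : ∀ (ℓ : ℕ) (hℓ : ℓ.Prime) (hℓM : ¬ ℓ ∣ M₁), ¬ ℓ ∣ Q →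
      CuspForm.heckeTLin 2 hℓ hℓM h = a ℓ • h) :
    ∃ f : CuspForm (Gamma0 M₁) 2, f.IsNormalizedEigenform ∧
      ∀ ℓ : ℕ, ℓ.Prime → ¬ ℓ ∣ M₁ → ¬ ℓ ∣ Q → qCoeff f ℓ = a ℓ := by
  classical
  have : FiniteDimensional ℂ (CuspForm (Gamma0 M₁) 2) := S23.finiteDimensional_cuspForm M₁ 2
  let E : Submodule ℂ (CuspForm (Gamma0 M₁) 2) :=
    { carrier := {g | ∀ (ℓ : ℕ) (hℓ : ℓ.Prime) (hℓM : ¬ ℓ ∣ M₁), ¬ ℓ ∣ Q →
        CuspForm.heckeTLin 2 hℓ hℓM g = a ℓ • g}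
      add_mem' := by
        intro x y hx hy ℓ hℓ hℓM hQ
        rw [map_add, hx ℓ hℓ hℓM hQ, hy ℓ hℓ hℓM hQ, smul_add]
      zero_mem' := by
        intro ℓ hℓ hℓM hQ
        rw [map_zero, smul_zero]
      smul_mem' := by
        intro c x hx ℓ hℓ hℓM hQ
        rw [map_smul, hx ℓ hℓ hℓM hQ, smul_comm] }
  have hEmem : ∀ g, g ∈ E ↔ ∀ (ℓ : ℕ) (hℓ : ℓ.Prime) (hℓM : ¬ ℓ ∣ M₁), ¬ ℓ ∣ Q →
        CuspForm.heckeTLin 2 hℓ hℓM g = a ℓ • g := fun g => Iff.rfl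
  have hE : ∀ (S : Module.End ℂ (CuspForm (Gamma0 M₁) 2)),
      (∀ (ℓ : ℕ) (hℓ : ℓ.Prime) (hℓM : ¬ ℓ ∣ M₁), Commute (CuspForm.heckeTLin 2 hℓ hℓM) S) →
      ∀ x ∈ E, S x ∈ E := by
    intro S hS x hx
    rw [hEmem] at hx ⊢
    intro ℓ hℓ hℓM hQ
    have := congrArg (fun F : Module.End ℂ (CuspForm (Gamma0 M₁) 2) => F x) (hS ℓ hℓ hℓM).eq
    simp only [Module.End.mul_apply] at this
    rw [this, hx ℓ hℓ hℓM hQ, map_smul]
  let T0 : {ℓ : ℕ // ℓ.Prime} → Module.End ℂ (CuspForm (Gamma0 M₁) 2) := fun p =>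
    if hp : p.1 ∣ M₁ then CuspForm.heckeULin 2 hp else CuspForm.heckeTLin 2 p.2 hp
  have hT0U : ∀ (p : {ℓ : ℕ // ℓ.Prime}) (hp : p.1 ∣ M₁), T0 p = CuspForm.heckeULin 2 hp :=
    fun p hp => dif_pos hp
  have hT0T : ∀ (p : {ℓ : ℕ // ℓ.Prime}) (hp : ¬ p.1 ∣ M₁), T0 p = CuspForm.heckeTLin 2 p.2 hp :=
    fun p hp => dif_neg hp
  have hcomm : ∀ p q, Commute (T0 p) (T0 q) := by
    intro p q
    by_cases hp : p.1 ∣ M₁ <;> by_cases hq : q.1 ∣ M₁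
    · rw [hT0U p hp, hT0U q hq]; exact CuspForm.heckeULin_comm 2 hp hq
    · rw [hT0U p hp, hT0T q hq]; exact (CuspForm.heckeTLin_heckeULin_comm 2 q.2 hq hp).symm
    · rw [hT0T p hp, hT0U q hq]; exact CuspForm.heckeTLin_heckeULin_comm 2 p.2 hp hq
    · rw [hT0T p hp, hT0T q hq]; exact CuspForm.heckeTLin_comm 2 p.2 hp q.2 hq
  have hstab : ∀ p, ∀ x ∈ E, T0 p x ∈ E := by
    intro p
    apply hE
    intro ℓ hℓ hℓM
    have := hcomm ⟨ℓ, hℓ⟩ p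
    rwa [hT0T ⟨ℓ, hℓ⟩ hℓM] at this
  have : Nontrivial E := by
    refine ⟨⟨⟨h, (hEmem h).2 hT⟩, 0, ?_⟩⟩
    intro hh
    exact h0 (congrArg Subtype.val hh)
  obtain ⟨v, c, hv, hc⟩ := exists_common_eigenvector (V := E)
    (fun p => (T0 p).restrict (hstab p)) (by
      intro p q
      apply LinearMap.ext
      intro x
      apply Subtype.ext
      have := congrArg (fun F : Module.End ℂ (CuspForm (Gamma0 M₁) 2) => F x.1) (hcomm p q).eq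
      simpa [Module.End.mul_apply, LinearMap.restrict_apply] using this)
  have hv' : (v : CuspForm (Gamma0 M₁) 2) ≠ 0 := fun hh => hv (Subtype.ext hh)
  have hc' : ∀ p, T0 p v.1 = c p • v.1 := by
    intro p
    have := congrArg Subtype.val (hc p)
    simpa [LinearMap.restrict_apply] using this
  obtain ⟨f, hf, hfc⟩ := S49.exists_normalized v.1 hv'
    (fun ℓ => if hℓ : ℓ.Prime then c ⟨ℓ, hℓ⟩ else 0)
    (by
      intro ℓ hℓ hℓN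
      rw [dif_pos hℓ, ← hc' ⟨ℓ, hℓ⟩, hT0T ⟨ℓ, hℓ⟩ hℓN])
    (by
      intro q hq hqN
      rw [dif_pos hq, ← hc' ⟨q, hq⟩, hT0U ⟨q, hq⟩ hqN])
  refine ⟨f, hf, ?_⟩
  intro ℓ hℓ hℓM hQ
  rw [hfc ℓ hℓ, dif_pos hℓ]
  have h1 := hc' ⟨ℓ, hℓ⟩
  rw [hT0T ⟨ℓ, hℓ⟩ hℓM, (hEmem v.1).1 v.2 ℓ hℓ hℓM hQ] at h1
  have h2 : (a ℓ - c ⟨ℓ, hℓ⟩) • v.1 = 0 := by rw [sub_smul, h1, sub_self]
  rcases smul_eq_zero.1 h2 with h3 | h3
  · exact (sub_eq_zero.1 h3).symm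
  · exact absurd h3 hv'

end Fermat.Agent.GS.AL
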