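import Fermat.Agent.GS.AL.Norm
import Fermat.Prelude.Sol.S_ModularForm_heckeT_slash_eq_self_of_mem_Gamma0

/-!
# GS-AL 2: `T_ℓ` commutes with `W` (`ℓ ∤ M₁ q`)

With `β_j = heckeMatrix ℓ j = [[1, j], [0, ℓ]]`, `δ = heckeDiagMatrix ℓ = [[ℓ, 0], [0, 1]]`,
`W = [[q, b], [M, q d]]`, `M = M₁ q`:
* `β_j W = X β_{j'}` with `X = [[q + j M, (b + j q d - j' (q + j M)) / ℓ], [ℓ M, q d - M j']]` if
  `ℓ ∤ q + j M` and `j' (q + j M) ≡ b + j q d` mod `ℓ`;
* `β_j W = X δ` with `X = [[(q + j M) / ℓ, b + j q d], [M, ℓ q d]]` if `ℓ ∣ q + j M`;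
* `δ W = X β_{j'}` with `X = [[ℓ q, b - q j'], [M, (q d - M j') / ℓ]]`, `M j' ≡ q d` mod `ℓ`.
In all cases `X ∈ Γ₀(M) W` (`exists_eq_mul_W`), and `x ↦ x'` is a bijection of `P¹(𝔽_ℓ)`
(the Moebius transformation `j ↦ (b + j q d) / (q + j M)`).
-/

set_option autoImplicit false

noncomputable section

namespace Fermat.Agent.GS.AL

open UpperHalfPlane ModularForm MatrixGroups CongruenceSubgroup Matrix.SpecialLinearGroup
open Fermat.Agent.S23
open scoped ModularForm Manifold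
open P2MW.S_ModularForm_heckeT_slash_eq_self_of_mem_Gamma0.ModularForm.HeckeSlashInvariance
open scoped OnePoint

variable {M₁ q : ℕ} [NeZero q] (D : WData M₁ q)

/-- the general shape of the three matrix identities. -/
private theorem HeckeComm_exists (a b c d : ℤ) (hdet : (q : ℤ) * a * d - b * M₁ * c = 1)
    (Y Z : GL (Fin 2) ℝ)
    (h : (Y : Matrix (Fin 2) (Fin 2) ℝ) * (D.W : Matrix (Fin 2) (Fin 2) ℝ) =
      !![(q : ℝ) * a, (b : ℝ); (M₁ : ℝ) * q * c, (q : ℝ) * d] * (Z : Matrix (Fin 2) (Fin 2) ℝ)) :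
    ∃ γ ∈ G0 (M₁ * q), Y * D.W = γ * D.W * Z := by
  have hq : (q : ℝ) ≠ 0 := by exact_mod_cast NeZero.ne q
  have hdetR : (q : ℝ) * a * d - b * M₁ * c = 1 := by exact_mod_cast hdet
  have hne : (!![(q : ℝ) * a, (b : ℝ); (M₁ : ℝ) * q * c, (q : ℝ) * d]).det ≠ 0 := by
    rw [Matrix.det_fin_two_of]
    have : (q : ℝ) * a * (q * d) - b * (M₁ * q * c) = q := by linear_combination (q : ℝ) * hdetR
    rw [this]
    exact hq
  obtain ⟨γ, hγ, hX⟩ := exists_eq_mul_W D a b c d hdet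
    (Matrix.GeneralLinearGroup.mkOfDetNeZero _ hne) rfl
  refine ⟨γ, hγ, ?_⟩
  rw [← hX]
  apply Units.ext
  rw [Units.val_mul, Units.val_mul, h]
  rfl

variable {ℓ : ℕ}

private theorem HeckeComm_fin_fin (hℓ : ℓ ≠ 0) (j j' : ℕ) (e : ℤ)
    (he : D.b + j * (q * D.d) = j' * (q * (1 + j * M₁)) + ℓ * e) :
    ∃ γ ∈ G0 (M₁ * q), heckeMatrix ℓ j * D.W = γ * D.W * heckeMatrix ℓ j' := by
  have hD := D.det_eq
  refine HeckeComm_exists D (1 + j * M₁) e ℓ (D.d - M₁ * j') ?_ _ _ ?_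
  · linear_combination hD + (M₁ : ℤ) * he
  · have heR : (D.b : ℝ) + j * (q * D.d) = j' * (q * (1 + j * M₁)) + ℓ * e := by exact_mod_cast he
    rw [val_heckeMatrix hℓ, val_heckeMatrix hℓ, WData.val_W, Matrix.mul_fin_two, Matrix.mul_fin_two]
    push_cast
    congr 1
    ext i k
    fin_cases i <;> fin_cases k <;> simp
    · ring
    · linear_combination heR
    · ring
    · ring

private theorem HeckeComm_fin_inf (hℓ : ℓ ≠ 0) (j : ℕ) (e : ℤ)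
    (he : 1 + (j : ℤ) * M₁ = ℓ * e) :
    ∃ γ ∈ G0 (M₁ * q), heckeMatrix ℓ j * D.W = γ * D.W * heckeDiagMatrix ℓ := by
  have hD := D.det_eq
  refine HeckeComm_exists D e (D.b + j * (q * D.d)) 1 (ℓ * D.d) ?_ _ _ ?_
  · linear_combination hD - (q : ℤ) * D.d * he
  · have heR : 1 + (j : ℝ) * M₁ = ℓ * e := by exact_mod_cast he
    rw [val_heckeMatrix hℓ, val_heckeDiagMatrix hℓ, WData.val_W, Matrix.mul_fin_two,
      Matrix.mul_fin_two]
    push_cast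
    congr 1
    ext i k
    fin_cases i <;> fin_cases k <;> simp
    · linear_combination (q : ℝ) * heR
    · ring
    · ring

private theorem HeckeComm_inf_fin (hℓ : ℓ ≠ 0) (j' : ℕ) (e : ℤ)
    (he : D.d - (M₁ : ℤ) * j' = ℓ * e) :
    ∃ γ ∈ G0 (M₁ * q), heckeDiagMatrix ℓ * D.W = γ * D.W * heckeMatrix ℓ j' := by
  have hD := D.det_eq
  refine HeckeComm_exists D ℓ (D.b - q * j') 1 e ?_ _ _ ?_
  · linear_combination hD - (q : ℤ) * he
  · have heR : (D.d : ℝ) - (M₁ : ℝ) * j' = ℓ * e := by exact_mod_cast he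
    rw [val_heckeMatrix hℓ, val_heckeDiagMatrix hℓ, WData.val_W, Matrix.mul_fin_two,
      Matrix.mul_fin_two]
    push_cast
    congr 1
    ext i k
    fin_cases i <;> fin_cases k <;> simp
    · ring
    · ring
    · linear_combination (q : ℝ) * heR

/-- the reduction of (the adjugate-transpose of) `W` modulo `ℓ`. -/
private def HeckeComm_red [Fact ℓ.Prime] (hℓq : ¬ ℓ ∣ q) : GL (Fin 2) (ZMod ℓ) :=
  Matrix.GeneralLinearGroup.mkOfDetNeZero
    !![(q : ZMod ℓ) * (D.d : ZMod ℓ), (D.b : ZMod ℓ); (M₁ : ZMod ℓ) * q, (q : ZMod ℓ)]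
    (by
      have h := congrArg (Int.cast : ℤ → ZMod ℓ) D.det_eq
      push_cast at h
      rw [Matrix.det_fin_two_of]
      have : (q : ZMod ℓ) * (D.d : ZMod ℓ) * q - (D.b : ZMod ℓ) * ((M₁ : ZMod ℓ) * q) = q := by
        linear_combination (q : ZMod ℓ) * h
      rw [this]
      intro h0
      exact hℓq ((ZMod.natCast_eq_zero_iff _ _).mp h0))

private theorem HeckeComm_rep_mul [Fact ℓ.Prime] (hℓq : ¬ ℓ ∣ q) (hℓM : ¬ ℓ ∣ M₁)
    (x : OnePoint (ZMod ℓ)) :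
    ∃ γ ∈ G0 (M₁ * q), heckeRep ℓ x * D.W = γ * D.W * heckeRep ℓ (HeckeComm_red D hℓq • x) := by
  have hℓ : ℓ ≠ 0 := (Fact.out : ℓ.Prime).ne_zero
  have hq0 : (q : ZMod ℓ) ≠ 0 := fun h0 => hℓq ((ZMod.natCast_eq_zero_iff _ _).mp h0)
  have hM0 : (M₁ : ZMod ℓ) ≠ 0 := fun h0 => hℓM ((ZMod.natCast_eq_zero_iff _ _).mp h0)
  have r00 : HeckeComm_red D hℓq 0 0 = (q : ZMod ℓ) * (D.d : ZMod ℓ) := rfl
  have r01 : HeckeComm_red D hℓq 0 1 = (D.b : ZMod ℓ) := rfl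
  have r10 : HeckeComm_red D hℓq 1 0 = (M₁ : ZMod ℓ) * q := rfl
  have r11 : HeckeComm_red D hℓq 1 1 = (q : ZMod ℓ) := rfl
  induction x using OnePoint.rec with
  | infty =>
    rw [OnePoint.smul_infty_eq_ite, if_neg (by rw [r10]; exact mul_ne_zero hM0 hq0), heckeRep_infty,
      heckeRep_coe, r00, r10]
    set y : ZMod ℓ := (q : ZMod ℓ) * (D.d : ZMod ℓ) / ((M₁ : ZMod ℓ) * q) with hy
    obtain ⟨e, he⟩ : (ℓ : ℤ) ∣ D.d - (M₁ : ℤ) * y.val := by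
      rw [← ZMod.intCast_zmod_eq_zero_iff_dvd]
      push_cast
      rw [ZMod.natCast_zmod_val, hy]
      field_simp
      ring
    exact HeckeComm_inf_fin D hℓ y.val e he
  | coe j =>
    rw [OnePoint.smul_some_eq_ite, r00, r01, r10, r11]
    by_cases h : (M₁ : ZMod ℓ) * q * j + q = 0
    · rw [if_pos h, heckeRep_infty, heckeRep_coe]
      obtain ⟨e, he⟩ : (ℓ : ℤ) ∣ 1 + (j.val : ℤ) * M₁ := by
        rw [← ZMod.intCast_zmod_eq_zero_iff_dvd]
        push_cast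
        rw [ZMod.natCast_zmod_val]
        have : (q : ZMod ℓ) * (1 + j * M₁) = 0 := by linear_combination h
        exact (mul_eq_zero.mp this).resolve_left hq0
      exact HeckeComm_fin_inf D hℓ j.val e he
    · rw [if_neg h, heckeRep_coe, heckeRep_coe]
      set y : ZMod ℓ := ((q : ZMod ℓ) * (D.d : ZMod ℓ) * j + (D.b : ZMod ℓ)) /
        ((M₁ : ZMod ℓ) * q * j + q) with hy
      obtain ⟨e, he⟩ : (ℓ : ℤ) ∣ D.b + j.val * (q * D.d) - y.val * (q * (1 + j.val * M₁)) := by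
        rw [← ZMod.intCast_zmod_eq_zero_iff_dvd]
        push_cast
        rw [ZMod.natCast_zmod_val, ZMod.natCast_zmod_val,
          show (q : ZMod ℓ) * (1 + j * M₁) = (M₁ : ZMod ℓ) * q * j + q by ring, hy,
          div_mul_cancel₀ _ h]
        ring
      exact HeckeComm_fin_fin D hℓ j.val y.val e (by linear_combination he)

theorem heckeT_slash_W {k : ℤ} {ℓ : ℕ} (hℓ : ℓ.Prime) (hℓM : ¬ ℓ ∣ M₁ * q) {F : ℍ → ℂ}
    (hF : Inv (M₁ * q) k F) :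
    (heckeT k ℓ F) ∣[k] D.W = heckeT k ℓ (F ∣[k] D.W) := by
  have : Fact ℓ.Prime := ⟨hℓ⟩
  have hℓq : ¬ ℓ ∣ q := fun h => hℓM (Dvd.dvd.mul_left h _)
  have hℓM₁ : ¬ ℓ ∣ M₁ := fun h => hℓM (Dvd.dvd.mul_right h _)
  rw [heckeT_eq_sum_onePoint k F, heckeT_eq_sum_onePoint k (F ∣[k] D.W), SlashAction.sum_slash]
  calc ∑ x : OnePoint (ZMod ℓ), (F ∣[k] heckeRep ℓ x) ∣[k] D.W
      = ∑ x : OnePoint (ZMod ℓ), (F ∣[k] D.W) ∣[k] heckeRep ℓ (HeckeComm_red D hℓq • x) := by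
        refine Finset.sum_congr rfl fun x _ => ?_
        obtain ⟨γ, hγ, hmul⟩ := HeckeComm_rep_mul D hℓq hℓM₁ x
        rw [← SlashAction.slash_mul, hmul, SlashAction.slash_mul, SlashAction.slash_mul, hF γ hγ]
    _ = ∑ x : OnePoint (ZMod ℓ), (F ∣[k] D.W) ∣[k] heckeRep ℓ x :=
        Equiv.sum_comp (MulAction.toPerm (HeckeComm_red D hℓq))
          (fun x => (F ∣[k] D.W) ∣[k] heckeRep ℓ x)

end Fermat.Agent.GS.AL
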