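import Mathlib

/-!
# GS-AL: sums over coset representatives (abstract)
-/

set_option autoImplicit false

namespace Fermat.Agent.GS.AL

/-- abstract: the sum over a system of representatives of `H \ G` of an `H`-invariant element is
`G`-invariant. -/
theorem sum_slash_reps_invariant {G₀ α : Type*} [Group G₀] [AddCommMonoid α]
    (act : α → G₀ → α) (hact : ∀ f g h, act (act f g) h = act f (g * h))
    (hadd : ∀ (s : Finset ℕ) (f : ℕ → α) g, act (∑ i ∈ s, f i) g = ∑ i ∈ s, act (f i) g)
    (H G : Subgroup G₀) (m : ℕ) (r : ℕ → G₀)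
    (hr : ∀ g ∈ G, ∃! i, i < m ∧ g * (r i)⁻¹ ∈ H) (hrG : ∀ i < m, r i ∈ G)
    (f : α) (hf : ∀ h ∈ H, act f h = f) (g : G₀) (hg : g ∈ G) :
    act (∑ i ∈ Finset.range m, act f (r i)) g = ∑ i ∈ Finset.range m, act f (r i) := by
  classical
  rw [hadd]
  -- the permutation of indices
  have hex : ∀ i, i < m → ∃ i', i' < m ∧ r i * g * (r i')⁻¹ ∈ H := fun i hi =>
    (hr (r i * g) (G.mul_mem (hrG i hi) hg)).exists
  let π : ℕ → ℕ := fun i => if hi : i < m then (hex i hi).choose else i
  have hπ : ∀ i, i < m → π i < m ∧ r i * g * (r (π i))⁻¹ ∈ H := by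
    intro i hi
    simp only [π, dif_pos hi]
    exact (hex i hi).choose_spec
  have hinj : ∀ i, i < m → ∀ j, j < m → π i = π j → i = j := by
    intro i hi j hj hij
    have h1 := (hπ i hi).2
    have h2 := (hπ j hj).2
    rw [← hij] at h2
    have h3 : r i * (r j)⁻¹ ∈ H := by
      have := H.mul_mem h1 (H.inv_mem h2)
      have e : r i * g * (r (π i))⁻¹ * (r j * g * (r (π i))⁻¹)⁻¹ = r i * (r j)⁻¹ := by group
      rwa [e] at this
    have h4 : r i * (r i)⁻¹ ∈ H := by rw [mul_inv_cancel]; exact H.one_mem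
    exact (hr (r i) (hrG i hi)).unique ⟨hi, h4⟩ ⟨hj, h3⟩
  have hterm : ∀ i, i < m → act (act f (r i)) g = act f (r (π i)) := by
    intro i hi
    have h1 := (hπ i hi).2
    rw [hact]
    have e : r i * g = (r i * g * (r (π i))⁻¹) * r (π i) := by group
    rw [e, ← hact, hf _ h1]
  have hmaps : Set.MapsTo π (Finset.range m : Set ℕ) (Finset.range m : Set ℕ) := by
    intro i hi
    simp only [Finset.coe_range, Set.mem_Iio] at hi ⊢
    exact (hπ i hi).1
  have hinj' : Set.InjOn π (Finset.range m : Set ℕ) := by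
    intro i hi j hj hij
    simp only [Finset.coe_range, Set.mem_Iio] at hi hj
    exact hinj i hi j hj hij
  have hsurj : Set.SurjOn π (Finset.range m : Set ℕ) (Finset.range m : Set ℕ) :=
    Finset.surjOn_of_injOn_of_card_le π hmaps hinj' le_rfl
  refine Finset.sum_nbij π (fun i hi => ?_) hinj' hsurj (fun i hi => ?_)
  · exact Finset.mem_coe.1 (hmaps (Finset.mem_coe.2 hi))
  · exact hterm i (Finset.mem_range.1 hi)

end Fermat.Agent.GS.AL
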