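import Fermat.Agent.GS.AL.Norm
import Fermat.Agent.GS.AL.TraceAbs
import Fermat.Prelude.Thm_ModularFormClass_heckeT_heckeU_comm

/-!
# GS-AL 3: the trace `tr F = F + U_q (F | W)` is a cusp form of level `M₁`

`W β_j = q · g0 · [[1, j], [0, 1]]` (`β_j = heckeMatrix q j`), scalars act trivially in weight two, so
`tr F = F + ∑_{j < q} F | (g0 T^j)`, and `1, g0 T^j` (`j < q`) represent `Γ₀(M₁ q) \ Γ₀(M₁)`
(the coset of `γ` is determined by `(c : d) ∈ P¹(𝔽_q)`; `g0 T^j ↦ (1 : j)`, `1 ↦ (0 : 1)`).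
-/

set_option autoImplicit false

noncomputable section

namespace Fermat.Agent.GS.AL

open UpperHalfPlane ModularForm MatrixGroups CongruenceSubgroup Matrix.SpecialLinearGroup
open Fermat.Agent.S23
open scoped ModularForm Manifold

variable {M₁ q : ℕ} [NeZero q] (D : WData M₁ q)

omit [NeZero q] in
theorem Trace_coe_g0T (j : ℕ) :
    ((D.g0 * ModularGroup.T ^ (j : ℤ) : SL(2, ℤ)) : Matrix (Fin 2) (Fin 2) ℤ) =
      !![1, (j : ℤ) + D.b; (M₁ : ℤ), (M₁ : ℤ) * j + q * D.d] := by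
  rw [Matrix.SpecialLinearGroup.coe_mul, ModularGroup.coe_T_zpow]
  show !![1, D.b; (M₁ : ℤ), (q : ℤ) * D.d] * !![1, (j : ℤ); 0, 1] = _
  rw [Matrix.mul_fin_two]
  simp

theorem slash_W_heckeMatrix (j : ℕ) (F : ℍ → ℂ) :
    (F ∣[(2 : ℤ)] D.W) ∣[(2 : ℤ)] heckeMatrix q j =
      F ∣[(2 : ℤ)] (mapGL ℝ (D.g0 * ModularGroup.T ^ (j : ℤ)) : GL (Fin 2) ℝ) := by
  have hq : (q : ℝ) ≠ 0 := by exact_mod_cast NeZero.ne q
  let X : GL (Fin 2) ℝ := Matrix.GeneralLinearGroup.mkOfDetNeZero !![(q : ℝ), 0; 0, (q : ℝ)]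
    (by simp [Matrix.det_fin_two_of, hq])
  have hX : (X : Matrix (Fin 2) (Fin 2) ℝ) = !![(q : ℝ), 0; 0, (q : ℝ)] := rfl
  have hmul : D.W * heckeMatrix q j = X * mapGL ℝ (D.g0 * ModularGroup.T ^ (j : ℤ)) := by
    have h := Trace_coe_g0T D j
    generalize D.g0 * ModularGroup.T ^ (j : ℤ) = g at h
    have h00 : g 0 0 = 1 := by rw [h]; rfl
    have h01 : g 0 1 = (j : ℤ) + D.b := by rw [h]; rfl
    have h10 : g 1 0 = (M₁ : ℤ) := by rw [h]; rfl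
    have h11 : g 1 1 = (M₁ : ℤ) * j + q * D.d := by rw [h]; rfl
    apply Matrix.GeneralLinearGroup.ext
    intro i k
    fin_cases i <;> fin_cases k <;>
      simp [Matrix.mul_apply, Fin.sum_univ_two, val_heckeMatrix (NeZero.ne q), hX,
        h00, h01, h10, h11] <;> ring
  rw [← SlashAction.slash_mul, hmul, SlashAction.slash_mul, slash_scalar_two (q : ℝ) hq X hX]

omit [NeZero q] in
theorem Trace_entry (γ : SL(2, ℤ)) (j : ℕ) :
    (γ * (D.g0 * ModularGroup.T ^ (j : ℤ))⁻¹) 1 0 =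
      γ 1 0 * ((M₁ : ℤ) * j + q * D.d) - γ 1 1 * M₁ := by
  rw [Matrix.SpecialLinearGroup.coe_mul, Matrix.SpecialLinearGroup.coe_inv, Trace_coe_g0T,
    Matrix.adjugate_fin_two_of, Matrix.mul_apply, Fin.sum_univ_two]
  simp
  ring

omit [NeZero q] in
theorem Trace_mem_iff (hM : M₁ ≠ 0) (γ : SL(2, ℤ)) (c' : ℤ) (hc' : γ 1 0 = M₁ * c') (j : ℕ) :
    γ * (D.g0 * ModularGroup.T ^ (j : ℤ))⁻¹ ∈ Gamma0 (M₁ * q) ↔
      ((c' : ZMod q) * (M₁ : ZMod q)) * (j : ZMod q) = ((γ 1 1 : ℤ) : ZMod q) := by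
  rw [Gamma0_mem, ZMod.intCast_zmod_eq_zero_iff_dvd, Trace_entry, hc']
  have h1 : (M₁ : ℤ) * c' * ((M₁ : ℤ) * j + q * D.d) - γ 1 1 * M₁ =
      (M₁ : ℤ) * (c' * ((M₁ : ℤ) * j + q * D.d) - γ 1 1) := by ring
  have hM' : (M₁ : ℤ) ≠ 0 := by exact_mod_cast hM
  rw [h1, Nat.cast_mul, mul_dvd_mul_iff_left hM', ← ZMod.intCast_zmod_eq_zero_iff_dvd]
  push_cast
  rw [ZMod.natCast_self, zero_mul, add_zero, sub_eq_zero, mul_assoc]

/-- coset representatives. -/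
theorem exists_unique_rep (hq : q.Prime) (hqM : ¬ q ∣ M₁) (γ : SL(2, ℤ)) (hγ : γ ∈ Gamma0 M₁)
    (hγ' : γ ∉ Gamma0 (M₁ * q)) :
    ∃! j, j < q ∧ γ * (D.g0 * ModularGroup.T ^ (j : ℤ))⁻¹ ∈ Gamma0 (M₁ * q) := by
  have : Fact q.Prime := ⟨hq⟩
  have hM : M₁ ≠ 0 := fun h => hqM (h ▸ dvd_zero q)
  obtain ⟨c', hc'⟩ : (M₁ : ℤ) ∣ γ 1 0 :=
    (ZMod.intCast_zmod_eq_zero_iff_dvd _ _).mp (Gamma0_mem.mp hγ)
  have hc'q : (c' : ZMod q) ≠ 0 := by
    intro h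
    apply hγ'
    rw [Gamma0_mem, ZMod.intCast_zmod_eq_zero_iff_dvd, hc', Nat.cast_mul]
    exact mul_dvd_mul_left _ ((ZMod.intCast_zmod_eq_zero_iff_dvd _ _).mp h)
  have hMq : (M₁ : ZMod q) ≠ 0 := by
    intro h
    exact hqM ((ZMod.natCast_eq_zero_iff _ _).mp h)
  have hu : (c' : ZMod q) * (M₁ : ZMod q) ≠ 0 := mul_ne_zero hc'q hMq
  refine ⟨((((c' : ZMod q) * (M₁ : ZMod q))⁻¹ * ((γ 1 1 : ℤ) : ZMod q) : ZMod q)).val,
    ⟨ZMod.val_lt _, ?_⟩, ?_⟩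
  · rw [Trace_mem_iff D hM γ c' hc', ZMod.natCast_zmod_val, mul_inv_cancel_left₀ hu]
  · rintro j ⟨hj, hmem⟩
    rw [Trace_mem_iff D hM γ c' hc'] at hmem
    rw [← hmem, inv_mul_cancel_left₀ hu, ZMod.val_natCast, Nat.mod_eq_of_lt hj]

omit [NeZero q] in
theorem Trace_mapGL_mem_G0_iff (N : ℕ) (g : SL(2, ℤ)) :
    (mapGL ℝ g : GL (Fin 2) ℝ) ∈ G0 N ↔ g ∈ Gamma0 N :=
  Subgroup.mem_map_iff_mem (mapGL_injective (R := ℤ) (S := ℝ))

/-- the representatives of `Γ₀(M₁ q) \ Γ₀(M₁)`. -/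
def Trace_rep (i : ℕ) : GL (Fin 2) ℝ :=
  if i < q then mapGL ℝ (D.g0 * ModularGroup.T ^ (i : ℤ)) else 1

omit [NeZero q] in
theorem Trace_g0T_mem (j : ℕ) : D.g0 * ModularGroup.T ^ (j : ℤ) ∈ Gamma0 M₁ := by
  rw [Gamma0_mem, Trace_coe_g0T]
  simp

omit [NeZero q] in
theorem Trace_g0T_not_mem (hq : q.Prime) (hM : M₁ ≠ 0) (j : ℕ) :
    D.g0 * ModularGroup.T ^ (j : ℤ) ∉ Gamma0 (M₁ * q) := by
  rw [Gamma0_mem, ZMod.intCast_zmod_eq_zero_iff_dvd]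
  have h : (D.g0 * ModularGroup.T ^ (j : ℤ)) 1 0 = (M₁ : ℤ) := by
    rw [Trace_coe_g0T]
    simp
  rw [h, Int.natCast_dvd_natCast]
  intro hd
  have h1 : M₁ * q ≤ M₁ := Nat.le_of_dvd (Nat.pos_of_ne_zero hM) hd
  have h2 := hq.two_le
  have h3 : 0 < M₁ := Nat.pos_of_ne_zero hM
  nlinarith

theorem Trace_tr_eq (F : ℍ → ℂ) :
    D.tr F = ∑ i ∈ Finset.range (q + 1), F ∣[(2 : ℤ)] Trace_rep D i := by
  rw [Finset.sum_range_succ, WData.tr, heckeU, add_comm]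
  congr 1
  · refine Finset.sum_congr rfl fun j hj => ?_
    rw [slash_W_heckeMatrix, Trace_rep, if_pos (Finset.mem_range.mp hj)]
  · rw [Trace_rep, if_neg (lt_irrefl q), SlashAction.slash_one]

theorem inv_tr (hq : q.Prime) (hqM : ¬ q ∣ M₁) {F : ℍ → ℂ} (hF : Inv (M₁ * q) 2 F) :
    Inv M₁ 2 (D.tr F) := by
  have hM : M₁ ≠ 0 := fun h => hqM (h ▸ dvd_zero q)
  intro g hg
  rw [Trace_tr_eq]
  refine sum_slash_reps_invariant (G₀ := GL (Fin 2) ℝ) (α := ℍ → ℂ)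
    (fun f g => f ∣[(2 : ℤ)] g) (fun f g h => (SlashAction.slash_mul _ _ _ _).symm)
    (fun s f g => SlashAction.sum_slash _ _) (G0 (M₁ * q)) (G0 M₁) (q + 1) (Trace_rep D)
    ?_ ?_ F hF g hg
  · rintro _ ⟨γ, hγ, rfl⟩
    have hγ : γ ∈ Gamma0 M₁ := hγ
    by_cases hγ' : γ ∈ Gamma0 (M₁ * q)
    · refine ⟨q, ⟨Nat.lt_succ_self q, ?_⟩, ?_⟩
      · simp only [Trace_rep, if_neg (lt_irrefl q), inv_one, mul_one]
        exact (Trace_mapGL_mem_G0_iff _ _).mpr hγ'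
      · rintro i ⟨hi, hmem⟩
        by_contra hne
        have hi' : i < q := lt_of_le_of_ne (Nat.lt_succ_iff.mp hi) hne
        simp only [Trace_rep, if_pos hi'] at hmem
        rw [← map_inv, ← map_mul, Trace_mapGL_mem_G0_iff] at hmem
        apply Trace_g0T_not_mem D hq hM i
        have := (Gamma0 (M₁ * q)).mul_mem ((Gamma0 (M₁ * q)).inv_mem hmem) hγ'
        simpa using this
    · obtain ⟨j, ⟨hj, hjm⟩, huniq⟩ := exists_unique_rep D hq hqM γ hγ hγ'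
      refine ⟨j, ⟨Nat.lt_succ_of_lt hj, ?_⟩, ?_⟩
      · simp only [Trace_rep, if_pos hj]
        rw [← map_inv, ← map_mul, Trace_mapGL_mem_G0_iff]
        exact hjm
      · rintro i ⟨hi, hmem⟩
        by_cases hi' : i < q
        · simp only [Trace_rep, if_pos hi'] at hmem
          rw [← map_inv, ← map_mul, Trace_mapGL_mem_G0_iff] at hmem
          exact huniq i ⟨hi', hmem⟩
        · simp only [Trace_rep, if_neg hi', inv_one, mul_one] at hmem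
          exact absurd ((Trace_mapGL_mem_G0_iff _ _).mp hmem) hγ'
  · intro i _
    unfold Trace_rep
    split_ifs
    · exact (Trace_mapGL_mem_G0_iff _ _).mpr (Trace_g0T_mem D i)
    · exact one_mem _

theorem isCF_tr [NeZero M₁] (hq : q.Prime) (hqM : ¬ q ∣ M₁) {F : ℍ → ℂ}
    (hF : IsCF (G0 (M₁ * q)) 2 F) : IsCF (G0 M₁) 2 (D.tr F) := by
  have hinvF : Inv (M₁ * q) 2 F := by
    obtain ⟨a, rfl⟩ := hF
    exact fun γ hγ => a.slash_action_eq' γ hγ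
  have hinv := inv_tr D hq hqM hinvF
  obtain ⟨b, hb⟩ := isCF_slash_W D hF
  obtain ⟨a, ha⟩ := hF
  let c : CuspForm (G0 (M₁ * q)) 2 := a + CuspForm.heckeULin 2 (dvd_mul_left q M₁) b
  have hc : (⇑c : ℍ → ℂ) = D.tr F := by
    show ⇑(a + CuspForm.heckeULin 2 (dvd_mul_left q M₁) b) = _
    rw [FunLike.coe_add, CuspForm.coe_heckeULin_apply, ha, hb]
    rfl
  refine ⟨{ toFun := D.tr F
            slash_action_eq' := hinv
            holo' := by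
              have h : MDiff (⇑c) := c.holo'
              rw [hc] at h
              exact h
            zero_at_cusps' := ?_ }, rfl⟩
  intro x hx
  have := c.zero_at_cusps' ((Subgroup.IsArithmetic.isCusp_iff_isCusp_SL2Z (G0 (M₁ * q))).mpr
    ((Subgroup.IsArithmetic.isCusp_iff_isCusp_SL2Z (G0 M₁)).mp hx))
  rw [← hc]
  exact this

end Fermat.Agent.GS.AL
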