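import Fermat.Agent.GS.AL.HeckeComm
import Fermat.Agent.GS.AL.Trace
import Fermat.Agent.GS.AL.Eigen
import Fermat.Agent.GR.H.EigenCharA

/-!
# GS-AL 5: `a_q² = 1` for a newform of level `M`, `q ∥ M`

`tr F = F + U_q (F|W)` commutes with `T_ℓ` (`ℓ ∤ M`): `heckeT_slash_W` and the Prelude
`ModularFormClass.heckeT_heckeU_comm`.  If `F` is a `T_ℓ`-eigenvector with the eigenvalues of `g` then
`tr F` is one at level `M₁`, so `tr F = 0` by newness (`exists_eigenform_of_good_eigenvector`).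
Apply this to `F = g` and `F = g|W`:  `g + U_q (g|W) = 0`,  `g|W + U_q g = g|W + a_q g = 0`,
hence `g = a_q² g`.
-/

set_option autoImplicit false

noncomputable section

namespace Fermat.Agent.GS.AL

open UpperHalfPlane ModularForm MatrixGroups CongruenceSubgroup Matrix.SpecialLinearGroup
open Fermat.Agent.S23 ModularFormClass
open scoped ModularForm Manifold

variable {M₁ q : ℕ} [NeZero q] (D : WData M₁ q)

theorem Main_inv_of_isCF {N : ℕ} {k : ℤ} {F : ℍ → ℂ} (hF : IsCF (G0 N) k F) : Inv N k F := by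
  obtain ⟨a, rfl⟩ := hF
  exact fun γ hγ => SlashInvariantFormClass.slash_action_eq a γ hγ

theorem Main_smul_slash_W (k : ℤ) (c : ℂ) (F : ℍ → ℂ) :
    (c • F) ∣[k] D.W = c • (F ∣[k] D.W) := by
  rw [ModularForm.smul_slash]
  have hpos : 0 < ((D.W).det : ℝ) := by
    rw [det_W]
    exact_mod_cast Nat.pos_of_ne_zero (NeZero.ne q)
  have : σ D.W = ContinuousAlgEquiv.refl ℝ ℂ := by
    rw [σ, if_pos hpos]
  rw [this]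
  rfl

theorem Main_tr_smul (c : ℂ) (F : ℍ → ℂ) : D.tr (c • F) = c • D.tr F := by
  rw [WData.tr, WData.tr, Main_smul_slash_W, heckeU_smul, smul_add]

theorem heckeT_tr {ℓ : ℕ} (hℓ : ℓ.Prime) (hℓM : ¬ ℓ ∣ M₁ * q) {F : ℍ → ℂ}
    (hF : IsCF (G0 (M₁ * q)) 2 F) : heckeT 2 ℓ (D.tr F) = D.tr (heckeT 2 ℓ F) := by
  have hinv : Inv (M₁ * q) 2 F := Main_inv_of_isCF hF
  obtain ⟨a, ha⟩ := isCF_slash_W D hF
  have hcop : Nat.Coprime ℓ q :=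
    (Nat.Prime.coprime_iff_not_dvd hℓ).mpr (fun h => hℓM (Dvd.dvd.mul_left h M₁))
  have h1 := ModularFormClass.heckeT_heckeU_comm a (one_mem_strictPeriods_Gamma0 (M₁ * q)) hcop
  rw [ha] at h1
  rw [WData.tr, WData.tr, heckeT_add, h1, heckeT_slash_W D hℓ hℓM hinv]

theorem tr_eq_zero_of_new [NeZero M₁] (hq : q.Prime) (hqM : ¬ q ∣ M₁)
    {g : CuspForm (Gamma0 (M₁ * q)) 2} (hnew : ¬ CuspForm.GoodEigensystemOccursAt g M₁)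
    {F : ℍ → ℂ} (hF : IsCF (G0 (M₁ * q)) 2 F)
    (hTF : ∀ ℓ : ℕ, ℓ.Prime → ¬ ℓ ∣ M₁ * q → heckeT 2 ℓ F = qCoeff g ℓ • F) :
    D.tr F = 0 := by
  by_contra h0
  obtain ⟨h, hh⟩ := isCF_tr D hq hqM hF
  have hne : h ≠ 0 := by
    rintro rfl
    exact h0 hh.symm
  have hT : ∀ (ℓ : ℕ) (hℓ : ℓ.Prime) (hℓM : ¬ ℓ ∣ M₁), ¬ ℓ ∣ q →
      CuspForm.heckeTLin 2 hℓ hℓM h = (fun ℓ => qCoeff g ℓ) ℓ • h := by
    intro ℓ hℓ hℓM hℓq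
    have hℓMq : ¬ ℓ ∣ M₁ * q := fun hd => (hℓ.dvd_mul.mp hd).elim hℓM hℓq
    apply DFunLike.coe_injective
    have h4 : (⇑(qCoeff g ℓ • h) : ℍ → ℂ) = qCoeff g ℓ • (⇑h : ℍ → ℂ) := rfl
    rw [CuspForm.coe_heckeTLin_apply]
    change _ = (⇑(qCoeff g ℓ • h) : ℍ → ℂ)
    rw [h4, hh, heckeT_tr D hℓ hℓMq hF, hTF ℓ hℓ hℓMq, Main_tr_smul]
  obtain ⟨f, hf, hfa⟩ := exists_eigenform_of_good_eigenvector q (fun ℓ => qCoeff g ℓ) h hne hT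
  exact hnew ⟨f, hf, fun ℓ hℓ hℓN => hfa ℓ hℓ (fun hd => hℓN (Dvd.dvd.mul_right hd q))
    (fun hd => hℓN (Dvd.dvd.mul_left hd M₁))⟩

theorem qCoeff_sq_eq_one_aux [NeZero M₁] (hq : q.Prime) (hqM : ¬ q ∣ M₁)
    {g : CuspForm (Gamma0 (M₁ * q)) 2} (hg : g.IsNormalizedEigenform)
    (hnew : ¬ CuspForm.GoodEigensystemOccursAt g M₁) : qCoeff g q ^ 2 = 1 := by
  obtain ⟨D⟩ := exists_wData ((Nat.Prime.coprime_iff_not_dvd hq).mpr hqM)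
  have hN : NeZero (M₁ * q) := ⟨mul_ne_zero (NeZero.ne M₁) (NeZero.ne q)⟩
  have hG : IsCF (G0 (M₁ * q)) 2 (⇑g) := ⟨g, rfl⟩
  have hinv : Inv (M₁ * q) 2 (⇑g) := Main_inv_of_isCF hG
  have hTG : ∀ ℓ : ℕ, ℓ.Prime → ¬ ℓ ∣ M₁ * q → heckeT 2 ℓ (⇑g) = qCoeff g ℓ • (⇑g : ℍ → ℂ) := by
    intro ℓ hℓ hℓM
    have h1 := congrArg (fun F : CuspForm (Gamma0 (M₁ * q)) 2 => (⇑F : ℍ → ℂ))
      (GR.H.EigenCharA_heckeTLin hg hℓ hℓM)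
    exact h1
  have hUG : heckeU 2 q (⇑g) = qCoeff g q • (⇑g : ℍ → ℂ) := by
    have h1 := congrArg (fun F : CuspForm (Gamma0 (M₁ * q)) 2 => (⇑F : ℍ → ℂ))
      (GR.H.EigenCharA_heckeULin hg hq (Dvd.intro_left M₁ rfl))
    exact h1
  have h1 : D.tr (⇑g) = 0 := tr_eq_zero_of_new D hq hqM hnew hG hTG
  have hGW : IsCF (G0 (M₁ * q)) 2 ((⇑g : ℍ → ℂ) ∣[(2 : ℤ)] D.W) := isCF_slash_W D hG
  have hTGW : ∀ ℓ : ℕ, ℓ.Prime → ¬ ℓ ∣ M₁ * q →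
      heckeT 2 ℓ ((⇑g : ℍ → ℂ) ∣[(2 : ℤ)] D.W) = qCoeff g ℓ • ((⇑g : ℍ → ℂ) ∣[(2 : ℤ)] D.W) := by
    intro ℓ hℓ hℓM
    rw [← heckeT_slash_W D hℓ hℓM hinv, hTG ℓ hℓ hℓM, Main_smul_slash_W]
  have h2 : D.tr ((⇑g : ℍ → ℂ) ∣[(2 : ℤ)] D.W) = 0 := tr_eq_zero_of_new D hq hqM hnew hGW hTGW
  rw [WData.tr, slash_W_W D hinv, hUG] at h2
  have h3 : (⇑g : ℍ → ℂ) ∣[(2 : ℤ)] D.W = (-qCoeff g q) • (⇑g : ℍ → ℂ) := by
    rw [_root_.neg_smul]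
    exact eq_neg_of_add_eq_zero_left h2
  rw [WData.tr, h3, heckeU_smul, hUG, smul_smul] at h1
  have h4 : (1 + -qCoeff g q * qCoeff g q) • (⇑g : ℍ → ℂ) = 0 := by
    rw [add_smul, one_smul]
    exact h1
  have hg0 : (⇑g : ℍ → ℂ) ≠ 0 := by
    intro h0
    apply hg.ne_zero
    apply DFunLike.coe_injective
    rw [h0]
    rfl
  rcases smul_eq_zero.mp h4 with h5 | h5
  · linear_combination -h5
  · exact absurd h5 hg0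

/-- (W2) -/
theorem qCoeff_sq_eq_one {M : ℕ} [NeZero M] {g : CuspForm (Gamma0 M) 2} (hg : g.IsNewform)
    {q : ℕ} (hq : q.Prime) (hqM : q ∣ M) (hq2 : ¬ q ^ 2 ∣ M) : qCoeff g q ^ 2 = 1 := by
  obtain ⟨M₁, hM⟩ : ∃ M₁, M = M₁ * q := by
    obtain ⟨c, hc⟩ := hqM
    exact ⟨c, by rw [hc, mul_comm]⟩
  subst hM
  have hq0 : NeZero q := ⟨hq.ne_zero⟩
  have hM₁ : NeZero M₁ := ⟨fun h => NeZero.ne (M₁ * q) (by rw [h, zero_mul])⟩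
  have hqM₁ : ¬ q ∣ M₁ := by
    rintro ⟨c, rfl⟩
    exact hq2 ⟨c, by ring⟩
  have hne : M₁ ≠ M₁ * q := by
    intro h
    have h1 : M₁ * 1 = M₁ * q := by rw [mul_one]; exact h
    have h2 := Nat.eq_of_mul_eq_mul_left (Nat.pos_of_ne_zero (NeZero.ne M₁)) h1
    exact hq.one_lt.ne h2
  exact qCoeff_sq_eq_one_aux hq hqM₁ hg.1 (hg.2 M₁ (Dvd.intro q rfl) hne)

end Fermat.Agent.GS.AL
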