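import Fermat.Agent.GS.AL.Defs

/-!
# GS-AL 1: `W` normalizes `Γ₀(M₁ q)`, `W² ∈ q Γ₀(M₁ q)`

Model: `S16.G0_le_conj_Wm`, `S16.isMF_slash_Wm`, `S16.slash_Wm_Wm_two`.
-/

set_option autoImplicit false

noncomputable section

namespace Fermat.Agent.GS.AL

open UpperHalfPlane ModularForm MatrixGroups CongruenceSubgroup Matrix.SpecialLinearGroup
open Fermat.Agent.S23
open scoped ModularForm Manifold Pointwise

variable {M₁ q : ℕ} [NeZero q] (D : WData M₁ q)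

theorem det_W : ((D.W).det : ℝ) = q := by
  have h : ((q : ℝ) * D.d - D.b * M₁) = 1 := by exact_mod_cast D.det_eq
  rw [Matrix.GeneralLinearGroup.val_det_apply, WData.val_W, Matrix.det_fin_two_of]
  linear_combination (q : ℝ) * h

/-- Every integral matrix `[[q a, b], [M₁ q c, q d]]` of determinant `q` lies in `Γ₀(M₁ q) W`. -/
theorem exists_eq_mul_W (a b c d : ℤ) (hdet : (q : ℤ) * a * d - b * M₁ * c = 1)
    (X : GL (Fin 2) ℝ)
    (hX : (X : Matrix (Fin 2) (Fin 2) ℝ) =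
      !![(q : ℝ) * a, (b : ℝ); (M₁ : ℝ) * q * c, (q : ℝ) * d]) :
    ∃ γ ∈ G0 (M₁ * q), X = γ * D.W := by
  have h : ((q : ℝ) * D.d - D.b * M₁) = 1 := by exact_mod_cast D.det_eq
  obtain ⟨δ, h00, h01, h10, h11⟩ : ∃ δ : SL(2, ℤ), δ 0 0 = q * a * D.d - b * M₁ ∧
      δ 0 1 = - a * D.b + b ∧ δ 1 0 = M₁ * q * (c * D.d - d) ∧
      δ 1 1 = - M₁ * c * D.b + q * d := by
    refine ⟨⟨!![q * a * D.d - b * M₁, - a * D.b + b; M₁ * q * (c * D.d - d),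
      - M₁ * c * D.b + q * d], ?_⟩, rfl, rfl, rfl, rfl⟩
    rw [Matrix.det_fin_two_of]
    linear_combination ((q : ℤ) * D.d - D.b * M₁) * hdet + D.det_eq
  refine ⟨mapGL ℝ δ, ⟨δ, ?_, rfl⟩, ?_⟩
  · show δ ∈ Gamma0 (M₁ * q)
    rw [Gamma0_mem, h10]
    push_cast
    have : ((M₁ : ZMod (M₁ * q)) * (q : ZMod (M₁ * q))) = 0 := by
      rw [← Nat.cast_mul]; exact ZMod.natCast_self _
    rw [this, zero_mul]
  apply Matrix.GeneralLinearGroup.ext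
  intro i j
  rw [hX]
  fin_cases i <;> fin_cases j <;>
    simp [Matrix.mul_apply, Fin.sum_univ_two, mapGL_coe_matrix, h00, h01, h10, h11]
  · linear_combination (-(q : ℝ) * a) * h
  · linear_combination (-(b : ℝ)) * h
  · linear_combination (-(M₁ : ℝ) * q * c) * h
  · linear_combination (-(q : ℝ) * d) * h

theorem Norm_W_mul (γ : GL (Fin 2) ℝ) (hγ : γ ∈ G0 (M₁ * q)) :
    ∃ γ' ∈ G0 (M₁ * q), D.W * γ = γ' * D.W := by
  obtain ⟨γ, hγ, rfl⟩ := hγ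
  have hγ' : ((M₁ * q : ℕ) : ℤ) ∣ γ 1 0 := by
    have := (Gamma0_mem).mp hγ
    exact (ZMod.intCast_zmod_eq_zero_iff_dvd _ _).mp this
  obtain ⟨c', hc'⟩ := hγ'
  have hdet : γ 0 0 * γ 1 1 - γ 0 1 * γ 1 0 = 1 := by
    have := γ.det_coe
    rw [Matrix.det_fin_two] at this
    exact this
  push_cast at hc'
  rw [hc'] at hdet
  have h10 : ((γ 1 0 : ℤ) : ℝ) = M₁ * q * c' := by rw [hc']; push_cast; ring
  refine exists_eq_mul_W D (γ 0 0 + D.b * M₁ * c') (q * γ 0 1 + D.b * γ 1 1)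
    (γ 0 0 + q * D.d * c') (M₁ * γ 0 1 + D.d * γ 1 1) ?_ _ ?_
  · linear_combination ((q : ℤ) * D.d - D.b * M₁) * hdet + D.det_eq
  · ext i j
    fin_cases i <;> fin_cases j <;>
      simp [Matrix.mul_apply, Fin.sum_univ_two, mapGL_coe_matrix, h10] <;> ring

theorem G0_le_conj_W : G0 (M₁ * q) ≤ ConjAct.toConjAct (D.W)⁻¹ • G0 (M₁ * q) := by
  intro γ hγ
  rw [map_inv, Subgroup.mem_inv_pointwise_smul_iff, ConjAct.toConjAct_smul]
  obtain ⟨γ', hγ', h⟩ := Norm_W_mul D γ hγ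
  rw [h, mul_inv_cancel_right]
  exact hγ'

theorem inv_slash_W {k : ℤ} {F : ℍ → ℂ} (hF : Inv (M₁ * q) k F) : Inv (M₁ * q) k (F ∣[k] D.W) := by
  intro γ hγ
  obtain ⟨γ', hγ', h⟩ := Norm_W_mul D γ hγ
  rw [← SlashAction.slash_mul, h, SlashAction.slash_mul, hF γ' hγ']

theorem Norm_IsCF_mono {Γ Γ' : Subgroup (GL (Fin 2) ℝ)} {k : ℤ} {F : ℍ → ℂ} (h : IsCF Γ' k F)
    (hΓ : Γ ≤ Γ') : IsCF Γ k F := by
  obtain ⟨a, rfl⟩ := h
  exact ⟨{ toFun := a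
           slash_action_eq' := fun γ hγ => a.slash_action_eq' γ (hΓ hγ)
           holo' := a.holo'
           zero_at_cusps' := fun hc => a.zero_at_cusps' (hc.mono hΓ) }, rfl⟩

theorem isCF_slash_W {k : ℤ} {F : ℍ → ℂ} (hF : IsCF (G0 (M₁ * q)) k F) :
    IsCF (G0 (M₁ * q)) k (F ∣[k] D.W) := by
  obtain ⟨a, rfl⟩ := hF
  exact Norm_IsCF_mono ⟨CuspForm.translate a D.W, rfl⟩ (G0_le_conj_W D)

/-- scalar matrices act trivially in weight two. -/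
theorem slash_scalar_two (c : ℝ) (hc : c ≠ 0) (X : GL (Fin 2) ℝ)
    (hX : (X : Matrix (Fin 2) (Fin 2) ℝ) = !![c, 0; 0, c]) (F : ℍ → ℂ) :
    F ∣[(2 : ℤ)] X = F := by
  have hdet : (X.det : ℝ) = c ^ 2 := by
    rw [Matrix.GeneralLinearGroup.val_det_apply, hX, Matrix.det_fin_two_of]
    ring
  have hpos : 0 < (X.det : ℝ) := by rw [hdet]; positivity
  have hcC : (c : ℂ) ≠ 0 := by exact_mod_cast hc
  have hden : ∀ τ : ℍ, denom X τ = c := by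
    intro τ
    simp [denom, hX]
  have hsmul : ∀ τ : ℍ, X • τ = τ := by
    intro τ
    apply UpperHalfPlane.ext
    rw [UpperHalfPlane.coe_smul_of_det_pos hpos]
    simp [num, denom, hX]
    field_simp
  ext τ
  rw [ModularForm.slash_apply, σ, if_pos hpos, hdet, hden, hsmul]
  simp
  field_simp

/-- `W` is an involution in weight two. -/
theorem slash_W_W {F : ℍ → ℂ} (hF : Inv (M₁ * q) 2 F) :
    (F ∣[(2 : ℤ)] D.W) ∣[(2 : ℤ)] D.W = F := by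
  have hq : (q : ℝ) ≠ 0 := by exact_mod_cast NeZero.ne q
  have h : ((q : ℝ) * D.d - D.b * M₁) = 1 := by exact_mod_cast D.det_eq
  obtain ⟨δ, h00, h01, h10, h11⟩ : ∃ δ : SL(2, ℤ), δ 0 0 = q + D.b * M₁ ∧
      δ 0 1 = D.b * (1 + D.d) ∧ δ 1 0 = M₁ * q * (1 + D.d) ∧
      δ 1 1 = M₁ * D.b + q * D.d ^ 2 := by
    refine ⟨⟨!![q + D.b * M₁, D.b * (1 + D.d); M₁ * q * (1 + D.d),
      M₁ * D.b + q * D.d ^ 2], ?_⟩, rfl, rfl, rfl, rfl⟩
    rw [Matrix.det_fin_two_of]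
    linear_combination ((q : ℤ) * D.d - D.b * M₁ + 1) * D.det_eq
  have hδ : (mapGL ℝ δ : GL (Fin 2) ℝ) ∈ G0 (M₁ * q) := by
    refine ⟨δ, ?_, rfl⟩
    show δ ∈ Gamma0 (M₁ * q)
    rw [Gamma0_mem, h10]
    push_cast
    have : ((M₁ : ZMod (M₁ * q)) * (q : ZMod (M₁ * q))) = 0 := by
      rw [← Nat.cast_mul]; exact ZMod.natCast_self _
    rw [this, zero_mul]
  set Sq : GL (Fin 2) ℝ := Matrix.GeneralLinearGroup.mkOfDetNeZero !![(q : ℝ), 0; 0, (q : ℝ)] (by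
    rw [Matrix.det_fin_two_of]; simpa using hq) with hSq
  have hSq' : (Sq : Matrix (Fin 2) (Fin 2) ℝ) = !![(q : ℝ), 0; 0, (q : ℝ)] := rfl
  have hWW : D.W * D.W = Sq * mapGL ℝ δ := by
    apply Matrix.GeneralLinearGroup.ext
    intro i j
    fin_cases i <;> fin_cases j <;>
      simp [Matrix.mul_apply, Fin.sum_univ_two, mapGL_coe_matrix, h00, h01, h10, h11, hSq'] <;>
      ring
  rw [← SlashAction.slash_mul, hWW, SlashAction.slash_mul, slash_scalar_two (q : ℝ) hq Sq hSq',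
    hF _ hδ]

end Fermat.Agent.GS.AL
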